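import Fermat.Agent.S41.Defs

/-!
# S41 : the top-level contracts and the assembly `result_of`

Five contracts (each a closed `Prop`); the owner of a block proves `theorem xxx : S41.<Contract>` in his own directory.

* `EigenInC`  (block INPUT)   : `f` gives `x₀ ≠ 0` in `V(N)[θ]` with `T_{q'} x₀ = ± (q' + 1) x₀`;
* `IharaC`    (blocks INPUT, GOOD, TORIC, NODES, GRAPH, TORS, NEAT; assembly helper7) : Ihara's lemma on `V(N)[θ]`;
* `DualC`     (block DUAL)    : `EigenIn → Ihara → Count`;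
* `LatticeC`  (block LATTICE) : `Count → Lat`;
* `FormsC`    (block FORMS)   : `Lat → Concl`.
-/

set_option autoImplicit false

noncomputable section

namespace Fermat.Agent.S41

open AlgebraicCurve ModularCurve Fermat.Agent.S24 Fermat.Agent.GAL Fermat.Agent.GAL.Hecke
open CongruenceSubgroup WeierstrassCurve WeierstrassCurve.Affine WeierstrassCurve.Affine.Point

/-- block INPUT, first part. -/
def EigenInC : Prop :=
  ∀ (W : WeierstrassCurve ℤ) (p N q' : ℕ) [NeZero N], p.Prime → p ≠ 2 → q'.Prime → ¬ q' ∣ N → q' ≠ p →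
    ∀ (f : CuspForm (CongruenceSubgroup.Gamma0 N) 2) (𝔪 : Ideal (integralClosure ℤ ℂ)),
      f.IsNormalizedEigenform → 𝔪.IsMaximal → (p : integralClosure ℤ ℂ) ∈ 𝔪 →
      (∀ ℓ : ℕ, ℓ.Prime → W.IsGoodPrimeFor ℓ → ¬ ℓ ∣ N → ℓ ≠ p →
        ∃ a : integralClosure ℤ ℂ, (a : ℂ) = ModularFormClass.qCoeff f ℓ ∧
          a - ((W.apOfModel ℓ : ℤ) : integralClosure ℤ ℂ) ∈ 𝔪) →
      (∃ a : integralClosure ℤ ℂ, (a : ℂ) = ModularFormClass.qCoeff f q' ∧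
        a ^ 2 - ((q' : integralClosure ℤ ℂ) + 1) ^ 2 ∈ 𝔪) →
      EigenIn W p N q'

/-- Ihara's lemma. -/
def IharaC : Prop :=
  ∀ (E : WeierstrassCurve ℚ) [E.IsElliptic] (W : WeierstrassCurve ℤ), W.IsIntegralModelOf E →
    ∀ (p N q' : ℕ) [NeZero N] [NeZero q'], p.Prime → p ≠ 2 → q'.Prime → ¬ q' ∣ N → q' ≠ p →
      GaloisRepIsIrreducible (K := AlgebraicClosure ℚ) ℚ E p → Ihara W p N q'

/-- block DUAL. -/
def DualC : Prop :=
  ∀ (W : WeierstrassCurve ℤ) (p N q' : ℕ) [NeZero N] [NeZero q'], p.Prime → p ≠ 2 → q'.Prime →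
    ¬ q' ∣ N → q' ≠ p → EigenIn W p N q' → Ihara W p N q' → Count W p N q'

/-- block LATTICE. -/
def LatticeC : Prop :=
  ∀ (W : WeierstrassCurve ℤ) (p N q' : ℕ) [NeZero N] [NeZero q'], p.Prime → q'.Prime →
    ¬ q' ∣ N → Count W p N q' → Lat W p N q'

/-- block FORMS. -/
def FormsC : Prop :=
  ∀ (W : WeierstrassCurve ℤ) (p N q' : ℕ) [NeZero N] [NeZero q'], p.Prime → q'.Prime →
    ¬ q' ∣ N → Lat W p N q' → Concl W p N q'

/-- **The assembly of S41.** -/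
theorem result_of (h₁ : EigenInC) (h₂ : IharaC) (h₃ : DualC) (h₄ : LatticeC) (h₅ : FormsC)
    (E : WeierstrassCurve ℚ) [E.IsElliptic] {W : WeierstrassCurve ℤ} (hW : W.IsIntegralModelOf E)
    {p N q' : ℕ} (hp : p.Prime) (hp2 : p ≠ 2) (hN : 0 < N) (hq' : q'.Prime) (hq'N : ¬ q' ∣ N) (hq'p : q' ≠ p)
    (hirr : GaloisRepIsIrreducible (K := AlgebraicClosure ℚ) ℚ E p)
    (f : CuspForm (CongruenceSubgroup.Gamma0 N) 2) (𝔪 : Ideal (integralClosure ℤ ℂ))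
    (hf : f.IsNormalizedEigenform) (hmax : 𝔪.IsMaximal) (hpm : (p : integralClosure ℤ ℂ) ∈ 𝔪)
    (hcong : ∀ ℓ : ℕ, ℓ.Prime → W.IsGoodPrimeFor ℓ → ¬ ℓ ∣ N → ℓ ≠ p →
      ∃ a : integralClosure ℤ ℂ, (a : ℂ) = ModularFormClass.qCoeff f ℓ ∧
        a - ((W.apOfModel ℓ : ℤ) : integralClosure ℤ ℂ) ∈ 𝔪)
    (hLR : ∃ a : integralClosure ℤ ℂ, (a : ℂ) = ModularFormClass.qCoeff f q' ∧
      a ^ 2 - ((q' : integralClosure ℤ ℂ) + 1) ^ 2 ∈ 𝔪) :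
    ∃ (g : CuspForm (CongruenceSubgroup.Gamma0 (N * q')) 2) (𝔪' : Ideal (integralClosure ℤ ℂ)),
      g.IsNormalizedEigenform ∧ 𝔪'.IsMaximal ∧ (p : integralClosure ℤ ℂ) ∈ 𝔪' ∧
      (∀ ℓ : ℕ, ℓ.Prime → W.IsGoodPrimeFor ℓ → ¬ ℓ ∣ N * q' → ℓ ≠ p →
        ∃ a : integralClosure ℤ ℂ, (a : ℂ) = ModularFormClass.qCoeff g ℓ ∧
          a - ((W.apOfModel ℓ : ℤ) : integralClosure ℤ ℂ) ∈ 𝔪') ∧
      g.IsNewAt q' := by
  have : NeZero N := ⟨hN.ne'⟩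
  have : NeZero q' := ⟨hq'.ne_zero⟩
  have e₁ := h₁ W p N q' hp hp2 hq' hq'N hq'p f 𝔪 hf hmax hpm hcong hLR
  have e₂ := h₂ E W hW p N q' hp hp2 hq' hq'N hq'p hirr
  have e₃ := h₃ W p N q' hp hp2 hq' hq'N hq'p e₁ e₂
  have e₄ := h₄ W p N q' hp hq' hq'N e₃
  exact h₅ W p N q' hp hq' hq'N e₄

end Fermat.Agent.S41
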