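import Fermat.Statements.S41
import Fermat.Agent.DR.Hecke.Defs
import Fermat.Agent.GAL.Assembly
import Fermat.Agent.GAL.LevelRaise

/-!
# S41 (level raising) : common definitions

Route = report 382 (helper7).  Levels `N` and `N * q'`; `V(M) = KV Kbar (FN M) p = J₀(M)[p]`.

* pull-backs `α^* = DR.Hecke.aPull M q m`, `β^* = DR.Hecke.bPull M q m`, push-forward `α_* = DR.Hecke.aPush M q m`;
* `Pr W L p ℓ` : the primes at which we have a congruence;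
* `Eig W M L p`, `GEig W M L p` : the (generalised) `θ`-eigenspace of `V(M)` for the `T_ℓ`, `ℓ ∈ Pr W L p`;
* `oldSub N q'` : the `q'`-old subspace of `S₂(N q')`;
* `TS`, `th` : the Hecke operators on cusp forms and the eigen-system mod `p` as total functions of `ℓ`;
  Hecke polynomials are elements of `FreeAlgebra ℤ ℕ`, evaluated by `FreeAlgebra.lift ℤ`.
-/

set_option autoImplicit false

noncomputable section

namespace Fermat.Agent.S41

open AlgebraicCurve ModularCurve Fermat.Agent.S24 Fermat.Agent.GAL Fermat.Agent.GAL.Hecke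
open CongruenceSubgroup
open scoped ModularForm MatrixGroups

/-- the primes at which the congruence with `E` is known (`L` = the level to be avoided). -/
def Pr (W : WeierstrassCurve ℤ) (L p ℓ : ℕ) : Prop :=
  ℓ.Prime ∧ W.IsGoodPrimeFor ℓ ∧ ¬ ℓ ∣ L ∧ ℓ ≠ p

/-- the `θ`-eigenspace of `V(M)`, `θ(ℓ) = a_ℓ(E) mod p`, `ℓ ∈ Pr W L p`. -/
def Eig (W : WeierstrassCurve ℤ) (M L p : ℕ) [NeZero M] : Set (KV Kbar (FN M) p) :=
  {x | ∀ ℓ, Pr W L p ℓ → heckeTtot M p ℓ x = W.apOfModel ℓ • x}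

/-- the generalised `θ`-eigenspace of `V(M)`. -/
def GEig (W : WeierstrassCurve ℤ) (M L p : ℕ) [NeZero M] : Set (KV Kbar (FN M) p) :=
  {x | ∀ ℓ, Pr W L p ℓ → ∃ n : ℕ, (fun y => heckeTtot M p ℓ y - W.apOfModel ℓ • y)^[n] x = 0}

/-- **(I)** an eigenvector of level `N` satisfying the level raising condition. -/
def EigenIn (W : WeierstrassCurve ℤ) (p N q' : ℕ) [NeZero N] : Prop :=
  ∃ x₀ : KV Kbar (FN N) p, x₀ ≠ 0 ∧ x₀ ∈ Eig W N (N * q') p ∧
    ∃ e : ℤ, (e = 1 ∨ e = -1) ∧ heckeTtot N p q' x₀ = (e * (q' + 1)) • x₀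

/-- **(II) Ihara's lemma** on the `θ`-eigenspace. -/
def Ihara (W : WeierstrassCurve ℤ) (p N q' : ℕ) [NeZero N] [NeZero q'] : Prop :=
  ∀ x ∈ Eig W N (N * q') p, ∀ y ∈ Eig W N (N * q') p,
    DR.Hecke.aPull N q' p x + DR.Hecke.bPull N q' p y = 0 → x = 0 ∧ y = 0

/-- **(III)** the count. -/
def Count (W : WeierstrassCurve ℤ) (p N q' : ℕ) [NeZero N] [NeZero q'] : Prop :=
  (Nat.card (GEig W N (N * q') p)) ^ 2 < Nat.card (GEig W (N * q') (N * q') p)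

/-- the `q'`-old subspace of `S₂(Γ₀(N q'))`: the forms `f₁(τ) + f₂(q' τ)`. -/
def oldSub (N q' : ℕ) : Submodule ℂ (CuspForm (Gamma0 (N * q')) 2) where
  carrier := {h | ∃ f₁ f₂ : CuspForm (Gamma0 N) 2,
    (h : UpperHalfPlane → ℂ) = ⇑f₁ + (⇑f₂ ∣[(2 : ℤ)] ModularForm.heckeDiagMatrix q')}
  add_mem' := by
    rintro a b ⟨f₁, f₂, h⟩ ⟨g₁, g₂, h'⟩
    refine ⟨f₁ + g₁, f₂ + g₂, ?_⟩
    rw [CuspForm.coe_add, CuspForm.coe_add, CuspForm.coe_add, h, h', SlashAction.add_slash]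
    abel
  zero_mem' := ⟨0, 0, by
    rw [CuspForm.coe_zero, CuspForm.coe_zero, SlashAction.zero_slash, add_zero]⟩
  smul_mem' := by
    rintro c a ⟨f₁, f₂, h⟩
    refine ⟨c • f₁, c • f₂, ?_⟩
    funext τ
    have hτ := congrFun h τ
    by_cases hq : q' = 0
    · subst hq
      simp only [ModularForm.heckeDiagMatrix_zero, SlashAction.slash_one, Pi.add_apply] at hτ ⊢
      show c • a τ = c • f₁ τ + c • f₂ τ
      rw [hτ, smul_add]
    · simp only [Pi.add_apply, ModularForm.slash_heckeDiagMatrix_apply 2 hq] at hτ ⊢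
      show c • a τ = c • f₁ τ + _ * (c • f₂ _)
      rw [hτ, smul_add]
      simp only [smul_eq_mul]
      ring

open Classical in
/-- `T_ℓ` on `S₂(Γ₀(M))` for `ℓ ∈ Pr W M p` (and `0` otherwise). -/
def TS (W : WeierstrassCurve ℤ) (p M ℓ : ℕ) : Module.End ℂ (CuspForm (Gamma0 M) 2) :=
  if h : Pr W M p ℓ then CuspForm.heckeTLin 2 h.1 h.2.2.1 else 0

open Classical in
/-- `θ(ℓ) = a_ℓ(E) mod p` for `ℓ ∈ Pr W M p` (and `0` otherwise). -/
def th (W : WeierstrassCurve ℤ) (p M ℓ : ℕ) : ZMod p :=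
  if Pr W M p ℓ then ((W.apOfModel ℓ : ℤ) : ZMod p) else 0

/-- **(IV)** `θ` occurs in `S₂(N q') / old`: a Hecke polynomial which kills `S / old` vanishes at `θ`. -/
def Lat (W : WeierstrassCurve ℤ) (p N q' : ℕ) : Prop :=
  ∀ P : FreeAlgebra ℤ ℕ,
    (∀ h : CuspForm (Gamma0 (N * q')) 2, FreeAlgebra.lift ℤ (TS W p (N * q')) P h ∈ oldSub N q') →
      FreeAlgebra.lift ℤ (th W p (N * q')) P = 0

/-- the conclusion of S41. -/
def Concl (W : WeierstrassCurve ℤ) (p N q' : ℕ) : Prop :=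
  ∃ (g : CuspForm (CongruenceSubgroup.Gamma0 (N * q')) 2) (𝔪' : Ideal (integralClosure ℤ ℂ)),
    g.IsNormalizedEigenform ∧ 𝔪'.IsMaximal ∧ (p : integralClosure ℤ ℂ) ∈ 𝔪' ∧
    (∀ ℓ : ℕ, ℓ.Prime → W.IsGoodPrimeFor ℓ → ¬ ℓ ∣ N * q' → ℓ ≠ p →
      ∃ a : integralClosure ℤ ℂ, (a : ℂ) = ModularFormClass.qCoeff g ℓ ∧
        a - ((W.apOfModel ℓ : ℤ) : integralClosure ℤ ℂ) ∈ 𝔪') ∧
    g.IsNewAt q'

end Fermat.Agent.S41
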